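import Mathlib
import Fermat.Agent.Lib.RegularFree

/-!
# Freeness descent along a semilinear identification

`N` is a module over a regular local ring `B`; through a ring homomorphism `φ : A → B` it is
free of finite rank over `A`.  If `A` has a weakly regular sequence generating a maximal ideal,
mapped by `φ` into the maximal ideal of `B`, of the same length as a regular system of
parameters of `B`, then `N` is free over `B`.
-/

namespace Fermat.Agent.S57

open RingTheory.Sequence IsLocalRing

universe u

set_option linter.style.haveILetI false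

/-- A finite module killed by a maximal ideal is artinian. -/
theorem isArtinian_of_finite_of_torsion {A : Type*} [CommRing A] (I : Ideal A) [hI : I.IsMaximal]
    (Q : Type*) [AddCommGroup Q] [Module A Q] [Module.Finite A Q]
    (h : ∀ a ∈ I, ∀ q : Q, a • q = 0) : IsArtinian A Q := by
  have hT : Module.IsTorsionBySet A Q I := fun q a => h a a.2 q
  letI := hT.module
  haveI : IsScalarTower A (A ⧸ I) Q := hT.isScalarTower
  haveI : Module.Finite (A ⧸ I) Q := Module.Finite.of_restrictScalars_finite A (A ⧸ I) Q
  letI : Field (A ⧸ I) := Ideal.Quotient.field I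
  haveI : IsArtinian (A ⧸ I) Q := inferInstance
  exact isArtinian_of_surjective_algebraMap (S := A) (R := A ⧸ I) Ideal.Quotient.mk_surjective

theorem free_of_semilinear_equiv {A B : Type u} [CommRing A] [CommRing B] [IsLocalRing B]
    [IsNoetherianRing B] (φ : A →+* B) (N : Type u) [AddCommGroup N] [Module B N]
    (d : ℕ) (e : (Fin d → A) ≃+ N) (he : ∀ (a : A) (c : Fin d → A), e (a • c) = φ a • e c)
    (xsA : List A) (hA : IsWeaklyRegular A xsA) (hAmax : (Ideal.ofList xsA).IsMaximal)
    (xsB : List B) (hB : IsRegular B xsB) (hBm : Ideal.ofList xsB = maximalIdeal B)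
    (hlen : xsA.length = xsB.length) (hφ : ∀ x ∈ xsA, φ x ∈ maximalIdeal B) :
    Module.Free B N := by
  letI : Algebra A B := φ.toAlgebra
  letI : Module A N := Module.compHom N φ
  haveI : IsScalarTower A B N := IsScalarTower.of_algebraMap_smul (fun a x => rfl)
  let eA : (Fin d → A) ≃ₗ[A] N := { e with map_smul' := fun a c => he a c }
  haveI : Module.Finite A N := Module.Finite.equiv eA
  haveI : Module.Finite B N := Module.Finite.of_restrictScalars_finite A B N
  have h1 : IsWeaklyRegular (Fin d → A) xsA := by
    have := hA.isWeaklyRegular_rTensor (M₂ := Fin d → A)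
    exact ((TensorProduct.lid A (Fin d → A)).isWeaklyRegular_congr xsA).mp this
  have h2 : IsWeaklyRegular N xsA := (eA.isWeaklyRegular_congr xsA).mp h1
  have h3 : IsWeaklyRegular N (xsA.map (algebraMap A B)) :=
    (isWeaklyRegular_map_algebraMap_iff B N xsA).mpr h2
  refine Fermat.Agent.Lib.RegularFree.free_of_isWeaklyRegular_of_isFiniteLength xsB hB hBm N
    (xsA.map (algebraMap A B)) h3 ?_ (by simp [hlen]) ?_
  · intro y hy
    obtain ⟨x, hx, rfl⟩ := List.mem_map.mp hy
    exact hφ x hx
  · rw [isFiniteLength_iff_isNoetherian_isArtinian]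
    refine ⟨inferInstance, ?_⟩
    set P : Submodule B N := Ideal.ofList (xsA.map (algebraMap A B)) • ⊤ with hP
    haveI : Module.Finite A (N ⧸ P) :=
      Module.Finite.of_surjective ((P.mkQ).restrictScalars A) P.mkQ_surjective
    haveI : IsArtinian A (N ⧸ P) :=
      isArtinian_of_finite_of_torsion (Ideal.ofList xsA) (N ⧸ P) (by
        intro a ha q
        obtain ⟨x, rfl⟩ := P.mkQ_surjective q
        rw [← algebraMap_smul B a (P.mkQ x), ← map_smul, Submodule.mkQ_apply,
          Submodule.Quotient.mk_eq_zero]
        refine Submodule.smul_mem_smul ?_ Submodule.mem_top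
        rw [← Ideal.map_ofList]
        exact Ideal.mem_map_of_mem _ ha)
    exact isArtinian_of_tower A inferInstance

end Fermat.Agent.S57
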